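import Fermat.Agent.AxSchanuel.Residue
import Mathlib.LinearAlgebra.Dimension.Finite
import Mathlib.LinearAlgebra.Dual.Lemmas
import Mathlib.RingTheory.Localization.Integer
import Mathlib.FieldTheory.IsAlgClosed.Basic

/-!
# Ax's theorem in a differential field
-/

set_option autoImplicit false

noncomputable section

open Polynomial

namespace Fermat.Agent.AxSchanuel

universe u v

variable {C : Type u} {F : Type v} [Field C] [CharZero C] [Field F] [Algebra C F]

/-- A derivation vanishing on the coefficients vanishes on algebraic elements. -/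
theorem derivation_eq_zero_of_isAlgebraic (δ : Derivation C F F) {E : IntermediateField C F}
    (hE : ∀ a ∈ E, δ a = 0) {x : F} (hx : IsAlgebraic E x) : δ x = 0 := by
  have : CharZero E := charZero_of_injective_ringHom (algebraMap C E).injective
  have hi := hx.isIntegral
  set p := minpoly E x
  have key : ∀ q : E[X], δ (aeval x q) = aeval x (derivative q) * δ x := fun q => by
    induction q using Polynomial.induction_on' with
    | add a b ha hb => rw [map_add, map_add, ha, hb, map_add, map_add, add_mul]
    | monomial n a =>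
      rw [derivative_monomial, aeval_monomial, aeval_monomial, δ.leibniz, δ.leibniz_pow,
        show δ (algebraMap E F a) = 0 from hE a a.2, map_mul, map_natCast]
      simp only [smul_eq_mul, nsmul_eq_mul, mul_zero, add_zero]
      ring
  have h := key p
  rw [minpoly.aeval, map_zero] at h
  exact (mul_eq_zero.1 h.symm).resolve_left
    ((minpoly.irreducible hi).separable.aeval_derivative_ne_zero (minpoly.aeval E x))

/-- The constants of a derivation contain what is algebraic over them. -/
theorem constant_of_isAlgebraic (δ : Derivation C F F) {x : F} (hx : IsAlgebraic C x) :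
    δ x = 0 := by
  refine derivation_eq_zero_of_isAlgebraic δ (E := ⊥) (fun a ha => ?_) ?_
  · obtain ⟨c, rfl⟩ := IntermediateField.mem_bot.1 ha
    exact δ.map_algebraMap c
  · exact hx.tower_top _

/-- A derivation from the Leibniz rule and the constants. -/
def derivationOfConst (f : F → F) (hadd : ∀ a b, f (a + b) = f a + f b)
    (hmul : ∀ a b, f (a * b) = a * f b + b * f a) (hc : ∀ c, f (algebraMap C F c) = 0) :
    Derivation C F F :=
  Derivation.mk'
    { toFun := f
      map_add' := hadd
      map_smul' := fun c a => by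
        rw [Algebra.smul_def, hmul, hc, mul_zero, add_zero, RingHom.id_apply, Algebra.smul_def] }
    hmul

variable (D : Derivation C F F) {n : ℕ} (y z : Fin n → F)

/-- The forms `dyᵢ - dzᵢ / zᵢ`, evaluated at derivations. -/
def axForms : Derivation C F F →ₗ[F] Fin n → F where
  toFun δ i := δ (y i) - δ (z i) / z i
  map_add' δ ε := funext fun i => by simp [add_div]; ring
  map_smul' a δ := funext fun i => by simp [mul_div_assoc]; ring

variable {y z} (hz : ∀ i, z i ≠ 0) (hD : ∀ i, D (z i) = z i * D (y i))

include hz hD in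
theorem axForms_self : axForms y z D = 0 :=
  funext fun i => by
    show D (y i) - D (z i) / z i = 0
    rw [hD, mul_div_cancel_left₀ _ (hz i), sub_self]

include hz hD in
/-- An annihilator of the forms may be differentiated. -/
theorem annihilator_deriv {a : Fin n → F}
    (ha : ∀ δ : Derivation C F F, ∑ i, a i * axForms (C := C) y z δ i = 0) :
    ∀ δ : Derivation C F F, ∑ i, D (a i) * axForms (C := C) y z δ i = 0 := fun δ => by
  let ε : Derivation C F F :=
    Derivation.mk' ((D : F →ₗ[C] F).comp (δ : F →ₗ[C] F) - (δ : F →ₗ[C] F).comp (D : F →ₗ[C] F))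
      fun p q => by
        simp only [LinearMap.sub_apply, LinearMap.comp_apply, Derivation.coeFn_coe,
          Derivation.leibniz, map_add, smul_eq_mul]
        ring
  have hε : ∀ i, axForms (C := C) y z ε i = D (axForms (C := C) y z δ i) := fun i => by
    show D (δ (y i)) - δ (D (y i)) - (D (δ (z i)) - δ (D (z i))) / z i =
      D (δ (y i) - δ (z i) / z i)
    rw [map_sub, Derivation.leibniz_div, hD, δ.leibniz]
    simp only [smul_eq_mul, inv_zpow]
    field_simp [hz i]
    ring
  have h := congrArg D (ha δ)
  rw [map_zero, map_sum] at h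
  simp only [Derivation.leibniz, smul_eq_mul, Finset.sum_add_distrib] at h
  simp only [← hε] at h
  rw [ha ε, zero_add] at h
  rw [← h]
  exact Finset.sum_congr rfl fun i _ => mul_comm _ _

include hz hD in
/-- **The core**: the `y i` and `z i` are not all algebraic over `n` elements. -/
theorem ax_core (hn : 0 < n) (hC : ∀ a, D a = 0 → a ∈ Set.range (algebraMap C F))
    (hy : ∀ m : Fin n → ℤ, D (∑ i, m i • y i) = 0 → m = 0) {N : ℕ} (hN : N ≤ n) (t : Fin N → F)
    (hty : ∀ i, IsAlgebraic (IntermediateField.adjoin C (Set.range t)) (y i))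
    (htz : ∀ i, IsAlgebraic (IntermediateField.adjoin C (Set.range t)) (z i)) : False := by
  classical
  -- derivations are determined by their values on `t`
  let ev : Derivation C F F →ₗ[F] Fin N → F :=
    { toFun := fun δ j => δ (t j)
      map_add' := fun δ ε => rfl
      map_smul' := fun a δ => rfl }
  have hker : LinearMap.ker ev ≤ LinearMap.ker (axForms (C := C) y z) := fun δ hδ => by
    have hE : ∀ a ∈ IntermediateField.adjoin C (Set.range t), δ a = 0 := fun a ha => by
      induction ha using IntermediateField.adjoin_induction with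
      | mem x hx => obtain ⟨j, rfl⟩ := hx; exact congrFun (LinearMap.mem_ker.1 hδ) j
      | algebraMap c => exact δ.map_algebraMap c
      | add x x' _ _ hx hx' => rw [map_add, hx, hx', add_zero]
      | inv x _ hx => rw [Derivation.leibniz_inv, hx, smul_zero]
      | mul x x' _ _ hx hx' => rw [δ.leibniz, hx, hx', smul_zero, smul_zero, add_zero]
    refine LinearMap.mem_ker.2 (funext fun i => ?_)
    show δ (y i) - δ (z i) / z i = 0
    rw [derivation_eq_zero_of_isAlgebraic δ hE (hty i),
      derivation_eq_zero_of_isAlgebraic δ hE (htz i), zero_div, sub_zero]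
  have hlt : Module.finrank F (LinearMap.range (axForms (C := C) y z)) < n := by
    let q : LinearMap.range ev →ₗ[F] Fin n → F :=
      ((LinearMap.ker ev).liftQ (axForms (C := C) y z) hker).comp
        ev.quotKerEquivRange.symm.toLinearMap
    have hq : ∀ δ : Derivation C F F, q ⟨ev δ, δ, rfl⟩ = axForms (C := C) y z δ := fun δ => by
      simp only [q, LinearMap.comp_apply, LinearEquiv.coe_coe]
      rw [LinearMap.quotKerEquivRange_symm_apply_image ev δ ⟨δ, rfl⟩]
      rfl
    have hr : LinearMap.range (axForms (C := C) y z) ≤ LinearMap.range q := by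
      rintro _ ⟨δ, rfl⟩
      exact ⟨_, hq δ⟩
    have hpos : 0 < Module.finrank F (LinearMap.ker q) := by
      refine (Module.finrank_pos_iff_exists_ne_zero (R := F) (M := LinearMap.ker q)).2
        ⟨⟨(⟨ev D, D, rfl⟩ : LinearMap.range ev), ?_⟩, fun h0 => ?_⟩
      · rw [LinearMap.mem_ker, hq, axForms_self D hz hD]
      · have hz0 : D ∈ LinearMap.ker ev :=
          congrArg Subtype.val (congrArg Subtype.val h0)
        have hE : ∀ a ∈ IntermediateField.adjoin C (Set.range t), D a = 0 := fun a ha => by
          induction ha using IntermediateField.adjoin_induction with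
          | mem x hx => obtain ⟨j, rfl⟩ := hx; exact congrFun (LinearMap.mem_ker.1 hz0) j
          | algebraMap c => exact D.map_algebraMap c
          | add x x' _ _ hx hx' => rw [map_add, hx, hx', add_zero]
          | inv x _ hx => rw [Derivation.leibniz_inv, hx, smul_zero]
          | mul x x' _ _ hx hx' => rw [D.leibniz, hx, hx', smul_zero, smul_zero, add_zero]
        have := hy (Pi.single ⟨0, hn⟩ 1) (by
          simpa [Pi.single_apply] using derivation_eq_zero_of_isAlgebraic D hE (hty ⟨0, hn⟩))
        simpa using congrFun this ⟨0, hn⟩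
    have h1 := LinearMap.finrank_range_add_finrank_ker q
    have h2 := (LinearMap.range ev).finrank_le
    have h3 := Submodule.finrank_mono hr
    rw [Module.finrank_fin_fun] at h2
    omega
  -- some linear form kills all the forms
  obtain ⟨φ, hφ, hker'⟩ := Submodule.exists_le_ker_of_lt_top
    (LinearMap.range (axForms (C := C) y z)) (lt_top_iff_ne_top.2 fun h => by
    rw [h, finrank_top, Module.finrank_fin_fun] at hlt
    exact lt_irrefl n hlt)
  let S : Finset ℕ := (Finset.range (n + 1)).filter fun c => ∃ a : Fin n → F, a ≠ 0 ∧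
    (∀ δ : Derivation C F F, ∑ i, a i * axForms (C := C) y z δ i = 0) ∧
      (Finset.univ.filter fun i => a i ≠ 0).card = c
  have hS : S.Nonempty := by
    refine ⟨_, Finset.mem_filter.2 ⟨Finset.mem_range.2 (Nat.lt_succ_of_le
      ((Finset.card_filter_le _ _).trans (Finset.card_fin n).le)),
      fun i => φ (Pi.single i 1), fun h => hφ ?_, fun δ => ?_, rfl⟩⟩
    · exact LinearMap.pi_ext fun i x => by
        rw [LinearMap.zero_apply, show (Pi.single i x : Fin n → F) = x • Pi.single i 1 by
          rw [← Pi.single_smul, smul_eq_mul, mul_one], map_smul, show φ (Pi.single i 1) = 0 from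
          congrFun h i, smul_zero]
    · have : φ (axForms (C := C) y z δ) = 0 := hker' ⟨δ, rfl⟩
      rw [pi_eq_sum_univ (axForms (C := C) y z δ), map_sum] at this
      rw [← this]
      refine Finset.sum_congr rfl fun i _ => ?_
      rw [map_smul, smul_eq_mul, mul_comm]
      congr 1
      exact congrArg φ (funext fun j => by simp [Pi.single_apply, eq_comm])
  obtain ⟨-, a, ha0, ha, hc⟩ := Finset.mem_filter.1 (S.min'_mem hS)
  obtain ⟨m, hm⟩ := Function.ne_iff.1 ha0
  set b : Fin n → F := fun i => a i / a m
  have hb : ∀ δ : Derivation C F F, ∑ i, b i * axForms (C := C) y z δ i = 0 := fun δ => by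
    simp only [b, div_mul_eq_mul_div, ← Finset.sum_div, ha δ, zero_div]
  have hDb : ∀ i, D (b i) = 0 := by
    by_contra hne
    push Not at hne
    have hmem : (Finset.univ.filter fun i => D (b i) ≠ 0).card ∈ S := Finset.mem_filter.2
      ⟨Finset.mem_range.2 (Nat.lt_succ_of_le ((Finset.card_filter_le _ _).trans
        (Finset.card_fin n).le)), fun i => D (b i), Function.ne_iff.2 hne,
        annihilator_deriv D hz hD hb, rfl⟩
    refine (S.min'_le _ hmem).not_gt (hc ▸ Finset.card_lt_card ?_)
    rw [Finset.ssubset_iff_of_subset fun i hi => ?_]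
    · refine ⟨m, by simpa using hm, ?_⟩
      simp [b, div_self hm]
    · simp only [Finset.mem_filter, Finset.mem_univ, true_and] at hi ⊢
      exact fun h0 => hi (by simp [b, h0])
  choose c hcb using fun i => hC _ (hDb i)
  -- express the constants through a `ℚ`-basis with integer coordinates
  set W := Submodule.span ℚ (Set.range c)
  have : FiniteDimensional ℚ W := FiniteDimensional.span_of_finite ℚ (Set.finite_range c)
  set e := Module.finBasis ℚ W
  let q : Fin n → Fin (Module.finrank ℚ W) → ℚ := fun i =>
    e.repr ⟨c i, Submodule.subset_span ⟨i, rfl⟩⟩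
  obtain ⟨⟨M, hM⟩, hMq⟩ := IsLocalization.exist_integer_multiples (nonZeroDivisors ℤ)
    (Finset.univ : Finset (Fin n × Fin (Module.finrank ℚ W))) fun p => q p.1 p.2
  choose N' hN' using fun p => hMq p (Finset.mem_univ p)
  have hM0 : (M : ℚ) ≠ 0 := Int.cast_ne_zero.2 (nonZeroDivisors.ne_zero hM)
  let ek : Fin (Module.finrank ℚ W) → C := fun k => (M : C)⁻¹ * (e k : C)
  have hek : LinearIndependent ℚ ek := by
    have h1 : LinearIndependent ℚ fun k => ((e k : C)) :=
      e.linearIndependent.map' W.subtype (Submodule.ker_subtype W)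
    refine Fintype.linearIndependent_iff.2 fun g hg => Fintype.linearIndependent_iff.1 h1 g ?_
    have : (M : C)⁻¹ * ∑ k, g k • (e k : C) = 0 := by
      rw [Finset.mul_sum, ← hg]
      exact Finset.sum_congr rfl fun k _ => mul_smul_comm _ _ _
    exact (mul_eq_zero.1 this).resolve_left
      (inv_ne_zero (Int.cast_ne_zero.2 (nonZeroDivisors.ne_zero hM)))
  have hci : ∀ i, c i = ∑ k, (N' (i, k) : C) * ek k := fun i => by
    have h := congrArg Subtype.val (e.sum_repr ⟨c i, Submodule.subset_span ⟨i, rfl⟩⟩)
    rw [Submodule.coe_sum] at h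
    refine h.symm.trans (Finset.sum_congr rfl fun k _ => ?_)
    have h' := hN' (i, k)
    simp only [Submodule.coe_smul, zsmul_eq_mul, eq_intCast] at h' ⊢
    show q i k • (e k : C) = _
    rw [show q i k = (N' (i, k) : ℚ) / (M : ℚ) by rw [eq_div_iff hM0, mul_comm]; exact h'.symm,
      Algebra.smul_def, map_div₀, map_intCast, map_intCast, div_eq_mul_inv, mul_assoc]
  have hlog : ∀ (δ : Derivation C F F) (s : Finset (Fin n)) (w : Fin n → ℤ),
      δ (∏ i ∈ s, z i ^ w i) = (∏ i ∈ s, z i ^ w i) * ∑ i ∈ s, (w i : F) * (δ (z i) / z i) := by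
    intro δ s w
    induction s using Finset.induction with
    | empty => simp
    | insert i s hi ih =>
      rw [Finset.prod_insert hi, Finset.sum_insert hi, δ.leibniz, ih, Derivation.leibniz_zpow,
        zpow_sub_one₀ (hz i)]
      simp only [smul_eq_mul, zsmul_eq_mul]
      ring
  set Z : Fin (Module.finrank ℚ W) → F := fun k => ∏ i, z i ^ N' (i, k)
  have hZ : ∀ k, Z k ≠ 0 := fun k => Finset.prod_ne_zero_iff.2 fun i _ => zpow_ne_zero _ (hz i)
  have halg := rosenlicht ek hek Z hZ (∑ i, c i • y i) fun δ => by
    have h := hb δ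
    simp only [← hcb, axForms, LinearMap.coe_mk, AddHom.coe_mk, mul_sub,
      Finset.sum_sub_distrib, sub_eq_zero] at h
    rw [map_sum]
    simp only [Derivation.map_smul]
    simp only [Algebra.smul_def, hlog δ Finset.univ, Z]
    rw [h]
    simp only [hci, map_sum, map_mul, map_intCast, Finset.sum_mul]
    rw [Finset.sum_comm]
    refine Finset.sum_congr rfl fun k _ => ?_
    rw [mul_div_cancel_left₀ _ (hZ k), Finset.mul_sum]
    exact Finset.sum_congr rfl fun i _ => by ring
  have hzero : ∀ k, (fun i => N' (i, k)) = 0 := fun k => by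
    refine hy _ ?_
    have h := constant_of_isAlgebraic D (halg k)
    rw [hlog D Finset.univ, mul_eq_zero] at h
    rw [map_sum, ← h.resolve_left (hZ k)]
    refine Finset.sum_congr rfl fun i _ => ?_
    rw [map_zsmul, zsmul_eq_mul, hD, mul_div_cancel_left₀ _ (hz i)]
  have hc0 : c m = 0 := by
    rw [hci]
    exact Finset.sum_eq_zero fun k _ => by
      rw [show N' (m, k) = 0 from congrFun (hzero k) m, Int.cast_zero, zero_mul]
  have := hcb m
  rw [hc0, map_zero] at this
  exact zero_ne_one (this.trans (div_self hm))

include hz hD in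
/-- **Ax's theorem**: the transcendence degree exceeds `n`. -/
theorem ax_trdeg (hn : 0 < n) (hC : ∀ a, D a = 0 → a ∈ Set.range (algebraMap C F))
    (hy : ∀ m : Fin n → ℤ, D (∑ i, m i • y i) = 0 → m = 0) :
    (n : Cardinal) + 1 ≤
      Algebra.trdeg C (IntermediateField.adjoin C (Set.range y ∪ Set.range z)) := by
  by_contra hlt
  set E := IntermediateField.adjoin C (Set.range y ∪ Set.range z)
  obtain ⟨B, hB⟩ := exists_isTranscendenceBasis C E
  have hcard : Cardinal.mk B ≤ (n : Cardinal) := by
    rw [hB.cardinalMk_eq_trdeg]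
    exact Order.lt_succ_iff.1 (by rw [Cardinal.succ_natCast]; exact not_le.1 hlt)
  have : Finite B := Cardinal.lt_aleph0_iff_finite.1 (hcard.trans_lt Cardinal.natCast_lt_aleph0)
  have := Fintype.ofFinite B
  have hN : Fintype.card B ≤ n := by simpa [Cardinal.mk_fintype] using hcard
  let e := (Fintype.equivFin B).symm
  let t : Fin (Fintype.card B) → F := fun j => ((e j : E) : F)
  have hrange : Set.range t = E.val '' B := by
    ext x
    simp only [t, Set.mem_range, Set.mem_image]
    refine ⟨fun ⟨j, hj⟩ => ⟨_, (e j).2, hj⟩, fun ⟨b, hb, hbx⟩ => ⟨e.symm ⟨b, hb⟩, ?_⟩⟩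
    rw [Equiv.apply_symm_apply]
    exact hbx
  have halg : ∀ x : E, IsAlgebraic (IntermediateField.adjoin C (Set.range t)) (x : F) := fun x => by
    have h1 := hB.isAlgebraic_field.isAlgebraic x
    rw [Subtype.range_coe] at h1
    rw [hrange, ← IntermediateField.adjoin_map]
    exact h1.ringHom_of_comp_eq
      (IntermediateField.equivMap (IntermediateField.adjoin C B) E.val).toRingEquiv.toRingHom
      E.val.toRingHom (RingEquiv.injective _) rfl
  exact ax_core D hz hD hn hC hy hN t
    (fun i => halg ⟨y i, IntermediateField.subset_adjoin C _ (Or.inl ⟨i, rfl⟩)⟩)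
    (fun i => halg ⟨z i, IntermediateField.subset_adjoin C _ (Or.inr ⟨i, rfl⟩)⟩)

end Fermat.Agent.AxSchanuel
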