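import Mathlib.RingTheory.HahnSeries.Multiplication
import Mathlib.RingTheory.HahnSeries.Summable
import Mathlib.RingTheory.Derivation.Basic

/-!
# The Euler derivation of Hahn series

`∑ a_γ t^γ ↦ ∑ χ(γ) a_γ t^γ`; its logarithmic derivative has constant term `χ(order)`.
-/

set_option autoImplicit false

noncomputable section

namespace Fermat.Agent.AxSchanuel

variable {Γ K : Type*} [AddCommGroup Γ] [LinearOrder Γ] [IsOrderedAddMonoid Γ] [Field K]
  (χ : Γ →+ K)

/-- The underlying map. -/
def eulerFun (x : HahnSeries Γ K) : HahnSeries Γ K where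
  coeff q := χ q * x.coeff q
  isPWO_support' := x.isPWO_support.mono fun _ hq => right_ne_zero_of_mul hq

theorem coeff_eulerFun (x : HahnSeries Γ K) (q : Γ) :
    (eulerFun χ x).coeff q = χ q * x.coeff q :=
  rfl

theorem support_eulerFun (x : HahnSeries Γ K) : (eulerFun χ x).support ⊆ x.support :=
  fun _ hq => right_ne_zero_of_mul hq

theorem eulerFun_mul (x y : HahnSeries Γ K) :
    eulerFun χ (x * y) = x * eulerFun χ y + y * eulerFun χ x := by
  ext q
  rw [HahnSeries.coeff_add, mul_comm y, coeff_eulerFun,
    HahnSeries.coeff_mul_right' y.isPWO_support (support_eulerFun χ y),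
    HahnSeries.coeff_mul_left' x.isPWO_support (support_eulerFun χ x), HahnSeries.coeff_mul,
    Finset.mul_sum, ← Finset.sum_add_distrib]
  refine Finset.sum_congr rfl fun ij hij => ?_
  rw [← (Finset.mem_addAntidiagonal.1 hij).2.2, map_add, coeff_eulerFun, coeff_eulerFun]
  ring

theorem eulerFun_C (c : K) : eulerFun χ (HahnSeries.C c : HahnSeries Γ K) = 0 := by
  ext q
  by_cases hq : q = 0
  · simp [coeff_eulerFun, hq]
  · simp [coeff_eulerFun, HahnSeries.C_apply, hq]

/-- The Euler derivation as a linear map over the series of degree zero. -/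
theorem eulerFun_add (x y : HahnSeries Γ K) :
    eulerFun χ (x + y) = eulerFun χ x + eulerFun χ y := by
  ext q
  simp [coeff_eulerFun, mul_add]

theorem coeff_zero_eulerFun (x : HahnSeries Γ K) : (eulerFun χ x).coeff 0 = 0 := by
  simp [coeff_eulerFun]

/-- **The residue of a logarithmic derivative is the order.** -/
theorem coeff_zero_eulerFun_div {x : HahnSeries Γ K} (hx : x ≠ 0) :
    (eulerFun χ x / x).coeff 0 = χ x.order := by
  set w := eulerFun χ x / x
  have he : x * w = eulerFun χ x := mul_div_cancel₀ _ hx
  have ho : x.coeff x.order ≠ 0 := by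
    rw [← HahnSeries.leadingCoeff_eq]
    exact HahnSeries.leadingCoeff_ne_zero.2 hx
  have hc : (x * w).coeff x.order = χ x.order * x.coeff x.order := by rw [he, coeff_eulerFun]
  by_cases hw : w = 0
  · rw [hw, mul_zero, HahnSeries.coeff_zero, eq_comm, mul_eq_zero] at hc
    simp [hw, hc.resolve_right ho]
  have hxw : x * w ≠ 0 := mul_ne_zero hx hw
  have hmem : (x * w).order ∈ x.support := by
    refine support_eulerFun χ x ?_
    rw [← he, HahnSeries.mem_support, ← HahnSeries.leadingCoeff_eq]
    exact HahnSeries.leadingCoeff_ne_zero.2 hxw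
  have h0 : 0 ≤ w.order := by
    have := HahnSeries.order_le_of_coeff_ne_zero (HahnSeries.mem_support _ _ |>.1 hmem)
    rwa [HahnSeries.order_mul hx hw, le_add_iff_nonneg_right] at this
  rcases h0.lt_or_eq with h0 | h0
  · have h1 : (x * w).coeff x.order = 0 := by
      by_contra h1
      have := HahnSeries.order_le_of_coeff_ne_zero h1
      rw [HahnSeries.order_mul hx hw, add_le_iff_nonpos_right] at this
      exact this.not_gt h0
    rw [hc, mul_eq_zero] at h1
    rw [h1.resolve_right ho]
    by_contra h2
    exact (HahnSeries.order_le_of_coeff_ne_zero h2).not_gt h0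
  · have := HahnSeries.coeff_mul_order_add_order x w
    rw [← h0, add_zero, hc, HahnSeries.leadingCoeff_eq, HahnSeries.leadingCoeff_eq, ← h0,
      mul_comm] at this
    exact (mul_left_cancel₀ ho this).symm

end Fermat.Agent.AxSchanuel
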