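import Fermat.Agent.AxSchanuel.Euler
import Fermat.Agent.NewtonPuiseux.PuiseuxField
import Mathlib.FieldTheory.AlgebraicClosure
import Mathlib.FieldTheory.RatFunc.AsPolynomial
import Mathlib.RingTheory.AlgebraicIndependent.TranscendenceBasis
import Mathlib.RingTheory.AlgebraicIndependent.Transcendental
import Mathlib.LinearAlgebra.Dual.Lemmas
import Mathlib.RingTheory.AlgebraicIndependent.AlgebraicClosure
import Mathlib.RingTheory.LaurentSeries

/-!
# Rosenlicht's lemma on logarithmic derivatives
-/

set_option autoImplicit false

noncomputable section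

open Fermat.Agent.NewtonPuiseux IntermediateField
open scoped RatFunc

namespace Fermat.Agent.AxSchanuel

universe u v

variable {C : Type u} [Field C]

/-- A transcendental element is a variable: it embeds the field into Puiseux series. -/
theorem exists_puiseux_embedding [CharZero C] {A : Type v} [Field A] [IsAlgClosed A] [Algebra C A]
    {t : A} (ht : Transcendental C t) :
    ∃ (K : IntermediateField C A) (g : A →+* HahnSeries ℚ K),
      g t = HahnSeries.single 1 1 ∧
        ∀ c, g (algebraMap C A c) = HahnSeries.C (algebraMap C K c) := by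
  classical
  obtain ⟨B, htB, hB⟩ := exists_isTranscendenceBasis_superset (R := C) (s := {t})
    ((algebraicIndependent_singleton_iff (R := C) (x := fun i : ({t} : Set A) => (i : A))
      ⟨t, rfl⟩).2 ht)
  rw [Set.singleton_subset_iff] at htB
  set k₀ := IntermediateField.adjoin C (B \ {t})
  set K' := algebraicClosure k₀ A
  let K : IntermediateField C A := K'.restrictScalars C
  have : IsAlgClosed K := IsAlgClosure.isAlgClosed (R := k₀) (K := K')
  have : CharZero K := charZero_of_injective_ringHom (algebraMap C K).injective
  have htK : Transcendental K t := fun h => by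
    have h₀ : IsIntegral k₀ t := isIntegral_trans (R := k₀) (A := K') t h.isIntegral
    have h1 := hB.1.transcendental_adjoin (s := {i : B | (i : A) ≠ t}) (i := ⟨t, htB⟩) (by simp)
    refine h1 ((IntermediateField.isAlgebraic_adjoin_iff).1 ?_)
    convert h₀.isAlgebraic using 0
    rw [show Subtype.val '' {i : B | (i : A) ≠ t} = B \ {t} by
      ext x; simp [and_comm]]
  set L : IntermediateField K A := IntermediateField.adjoin K {t}
  have hA : Algebra.IsAlgebraic L A := by
    have h1 := hB.isAlgebraic_field
    rw [Subtype.range_coe] at h1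
    have hle : IntermediateField.adjoin C B ≤ L.restrictScalars C := by
      refine IntermediateField.adjoin_le_iff.2 fun b hb => ?_
      by_cases hbt : b = t
      · exact hbt ▸ IntermediateField.mem_adjoin_simple_self K t
      · have : b ∈ K := mem_algebraicClosure_iff.2 (isAlgebraic_algebraMap
          (⟨b, IntermediateField.subset_adjoin C _ ⟨hb, hbt⟩⟩ : k₀))
        exact L.algebraMap_mem ⟨b, this⟩
    letI : Algebra (IntermediateField.adjoin C B) L :=
      (Subfield.inclusion (K := A) (S := (IntermediateField.adjoin C B).toSubfield)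
        (T := L.toSubfield) hle).toAlgebra
    have : IsScalarTower (IntermediateField.adjoin C B) L A :=
      IsScalarTower.of_algebraMap_eq fun x => rfl
    exact Algebra.IsAlgebraic.tower_top (K := IntermediateField.adjoin C B) L
  have : IsAlgClosed (puiseuxField K) := isAlgClosed_puiseuxField
  let e := RatFunc.algEquivOfTranscendental t htK
  let j : L →+* puiseuxField K :=
    (algebraMap (LaurentSeries K) (puiseuxField K)).comp
      ((algebraMap (RatFunc K) (LaurentSeries K)).comp e.symm.toAlgHom.toRingHom)
  letI : Algebra L (puiseuxField K) := j.toAlgebra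
  let ψ : A →ₐ[L] puiseuxField K := IsAlgClosed.lift
  refine ⟨K, (puiseuxField K).subtype.comp ψ.toRingHom, ?_, fun c => ?_⟩
  · have h1 : ψ t =
        algebraMap L (puiseuxField K) ⟨t, IntermediateField.mem_adjoin_simple_self K t⟩ :=
      ψ.commutes ⟨t, _⟩
    have h2 : e.symm ⟨t, IntermediateField.mem_adjoin_simple_self K t⟩ = RatFunc.X := by
      rw [AlgEquiv.symm_apply_eq, ← RatFunc.algebraMap_X,
        RatFunc.algEquivOfTranscendental_algebraMap,
        Polynomial.aeval_X]
      rfl
    show ((ψ t : puiseuxField K) : HahnSeries ℚ K) = _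
    rw [h1]
    show rootEmbedding 1 (algebraMap (RatFunc K) (LaurentSeries K) (e.symm _)) = _
    rw [h2, show algebraMap (RatFunc K) (LaurentSeries K) RatFunc.X = HahnSeries.single 1 1 from
      RatFunc.coe_X, rootEmbedding, HahnSeries.embDomainRingHom_apply,
      HahnSeries.embDomain_single]
    simp
  · have hc : algebraMap C A c = algebraMap L A (algebraMap K L (algebraMap C K c)) := rfl
    show ((ψ _ : puiseuxField K) : HahnSeries ℚ K) = _
    rw [hc, ψ.commutes]
    show rootEmbedding 1 (algebraMap (RatFunc K) (LaurentSeries K) (e.symm _)) = _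
    rw [e.symm.commutes, IsScalarTower.algebraMap_apply K (Polynomial K) (RatFunc K),
      ← IsScalarTower.algebraMap_apply (Polynomial K) (RatFunc K) (LaurentSeries K),
      Polynomial.algebraMap_hahnSeries_apply, Polynomial.algebraMap_eq, Polynomial.coe_C,
      HahnSeries.ofPowerSeries_C, rootEmbedding, HahnSeries.embDomainRingHom_C]

/-- **Rosenlicht's lemma**: if the `e k` are linearly independent over `ℚ` and
`∑ e k (δ zₖ / zₖ) = δ u` for all derivations over the constants, the `zₖ` are algebraic. -/
theorem rosenlicht [CharZero C] {F : Type v} [Field F] [Algebra C F] {m : ℕ} (e : Fin m → C)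
    (he : LinearIndependent ℚ e) (z : Fin m → F) (hz : ∀ k, z k ≠ 0) (u : F)
    (h : ∀ δ : Derivation C F F, ∑ k, e k • (δ (z k) / z k) = δ u) (k₀ : Fin m) :
    IsAlgebraic C (z k₀) := by
  by_contra htr
  set A := AlgebraicClosure F
  obtain ⟨K, g, hgt, hgC⟩ := exists_puiseux_embedding (C := C) (A := A) (t := algebraMap F A (z k₀))
    ((transcendental_algebraMap_iff (algebraMap F A).injective).2 htr)
  let gF : F →+* HahnSeries ℚ K := g.comp (algebraMap F A)
  have hgF : ∀ c, gF (algebraMap C F c) = HahnSeries.C (algebraMap C K c) := fun c => by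
    rw [← hgC, RingHom.comp_apply, ← IsScalarTower.algebraMap_apply]
  have : CharZero K := charZero_of_injective_ringHom (algebraMap C K).injective
  let χ : ℚ →+ K := (Rat.castHom K).toAddMonoidHom
  letI : Algebra F (HahnSeries ℚ K) := gF.toAlgebra
  set W := ∑ k, gF (algebraMap C F (e k)) * (eulerFun χ (gF (z k)) / gF (z k)) - eulerFun χ (gF u)
  have hW : W = 0 := by
    refine (Module.forall_dual_apply_eq_zero_iff F W).1 fun lam => ?_
    have hs : ∀ (a : F) (x : HahnSeries ℚ K), gF a * x = a • x := fun a x =>
      (Algebra.smul_def a x).symm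
    let δ : Derivation C F F :=
      Derivation.mk'
        { toFun := fun x => lam (eulerFun χ (gF x))
          map_add' := fun x y => by rw [map_add, eulerFun_add, map_add]
          map_smul' := fun c x => by
            rw [Algebra.smul_def, map_mul, eulerFun_mul, hgF, eulerFun_C, mul_zero, add_zero,
              ← hgF, hs, map_smul, RingHom.id_apply, smul_eq_mul, ← Algebra.smul_def] }
        fun a b => by
          show lam (eulerFun χ (gF (a * b))) = _
          rw [map_mul, eulerFun_mul, map_add, hs, hs, map_smul, map_smul]
          rfl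
    have := h δ
    rw [map_sub, map_sum, sub_eq_zero]
    refine Eq.trans (Finset.sum_congr rfl fun k _ => ?_) this
    rw [div_eq_inv_mul, ← map_inv₀, hs, hs, map_smul, map_smul, smul_eq_mul, smul_eq_mul,
      Algebra.smul_def, div_eq_inv_mul]
    rfl
  have h0 := congrArg (fun x : HahnSeries ℚ K => x.coeff 0) hW
  simp only [W, HahnSeries.coeff_sub, coeff_zero_eulerFun, sub_zero, HahnSeries.coeff_sum, hgF,
    HahnSeries.coeff_single_zero_mul, HahnSeries.C_apply, HahnSeries.coeff_zero] at h0
  rw [Finset.sum_congr rfl fun k _ => by
    rw [coeff_zero_eulerFun_div χ ((map_ne_zero gF).2 (hz k))]] at h0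
  have h2 : algebraMap C K (∑ k, (gF (z k)).order • e k) = 0 := by
    rw [map_sum]
    refine Eq.trans (Finset.sum_congr rfl fun k _ => ?_) h0
    rw [Algebra.smul_def, map_mul, mul_comm]
    exact congrArg (algebraMap C K (e k) * ·) (by simp [χ])
  have h3 := Fintype.linearIndependent_iff.1 he _
    ((algebraMap C K).injective (h2.trans (map_zero _).symm)) k₀
  rw [show gF (z k₀) = HahnSeries.single 1 1 from hgt, HahnSeries.order_single one_ne_zero] at h3
  exact one_ne_zero h3

end Fermat.Agent.AxSchanuel
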