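import Fermat.Agent.AxSchanuel.Differential
import Mathlib.RingTheory.LaurentSeries
import Mathlib.RingTheory.PowerSeries.Exp
import Mathlib.RingTheory.PowerSeries.Derivative
import Mathlib.RingTheory.AlgebraicIndependent.AlgebraicClosure

/-!
# Ax's theorem for power series
-/

set_option autoImplicit false

noncomputable section

open scoped PowerSeries

namespace Fermat.Agent.AxSchanuel

universe u

variable {K : Type u} [Field K] [CharZero K]

theorem algebraMap_laurent (c : K) : algebraMap K (LaurentSeries K) c = HahnSeries.C c := by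
  rw [HahnSeries.algebraMap_apply', ← PowerSeries.C_eq_algebraMap, HahnSeries.ofPowerSeries_C]

/-- `t d/dt` on Laurent series. -/
def laurentEuler :=
  derivationOfConst (C := K) (F := LaurentSeries K) (eulerFun (Int.castAddHom K)) (eulerFun_add _)
    (eulerFun_mul _) fun c => by rw [algebraMap_laurent, eulerFun_C]

theorem coeff_laurentEuler (x : LaurentSeries K) (q : ℤ) :
    (laurentEuler x).coeff q = q * x.coeff q :=
  rfl

theorem laurentEuler_coe (f : PowerSeries K) :
    laurentEuler (f : LaurentSeries K) =
      ((PowerSeries.X * PowerSeries.derivative K f : PowerSeries K) : LaurentSeries K) := by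
  ext q
  rw [coeff_laurentEuler, PowerSeries.coeff_coe, PowerSeries.coeff_coe]
  rcases lt_trichotomy q 0 with hq | hq | hq
  · simp [hq]
  · simp [hq]
  · obtain ⟨m, rfl⟩ : ∃ m : ℕ, q = (m + 1 : ℕ) := ⟨(q - 1).toNat, by omega⟩
    rw [if_neg (by omega), if_neg (by omega), Int.natAbs_natCast, PowerSeries.coeff_succ_X_mul,
      PowerSeries.coeff_derivative, Int.cast_natCast]
    push_cast
    ring

theorem laurentEuler_eq_zero {x : LaurentSeries K} (hx : laurentEuler x = 0) :
    x ∈ Set.range (algebraMap K (LaurentSeries K)) := by
  refine ⟨x.coeff 0, ?_⟩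
  ext q
  have h := congrArg (fun w : LaurentSeries K => w.coeff q) hx
  simp only [coeff_laurentEuler, HahnSeries.coeff_zero, mul_eq_zero, Int.cast_eq_zero] at h
  rw [algebraMap_laurent, HahnSeries.C_apply]
  by_cases hq : q = 0
  · simp [hq]
  · simp [hq, h.resolve_left hq]

/-- The composite `exp ∘ y`. -/
def expSeries (y : PowerSeries K) : PowerSeries K :=
  PowerSeries.subst y (PowerSeries.exp K)

theorem derivative_expSeries {y : PowerSeries K} (hy : PowerSeries.constantCoeff y = 0) :
    PowerSeries.derivative K (expSeries y) = expSeries y * PowerSeries.derivative K y := by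
  rw [expSeries, PowerSeries.derivative_subst (PowerSeries.HasSubst.of_constantCoeff_zero' hy),
    PowerSeries.derivative_exp]

theorem constantCoeff_expSeries {y : PowerSeries K} (hy : PowerSeries.constantCoeff y = 0) :
    PowerSeries.constantCoeff (expSeries y) = 1 := by
  rw [← PowerSeries.coeff_zero_eq_constantCoeff_apply, expSeries,
    PowerSeries.coeff_subst' (PowerSeries.HasSubst.of_constantCoeff_zero' hy),
    finsum_eq_single _ 0 fun d hd => by
      rw [PowerSeries.coeff_zero_eq_constantCoeff_apply, map_pow, hy, zero_pow hd, smul_zero]]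
  simp

variable {n : ℕ} {y : Fin n → PowerSeries K}

/-- The hypotheses of the differential theorem. -/
theorem laurent_setup (hy0 : ∀ i, PowerSeries.constantCoeff (y i) = 0)
    (hy : LinearIndependent ℤ y) :
    (∀ i, ((expSeries (y i) : PowerSeries K) : LaurentSeries K) ≠ 0) ∧
      (∀ i, laurentEuler ((expSeries (y i) : PowerSeries K) : LaurentSeries K) =
        ((expSeries (y i) : PowerSeries K) : LaurentSeries K) *
          laurentEuler ((y i : PowerSeries K) : LaurentSeries K)) ∧
      ∀ m : Fin n → ℤ,
        laurentEuler (∑ i, m i • ((y i : PowerSeries K) : LaurentSeries K)) = 0 → m = 0 := by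
  refine ⟨fun i h => ?_, fun i => ?_, fun m hm => ?_⟩
  · rw [← PowerSeries.coe_zero] at h
    have h' := congrArg PowerSeries.constantCoeff (HahnSeries.ofPowerSeries_injective h)
    rw [constantCoeff_expSeries (hy0 i), map_zero] at h'
    exact one_ne_zero h'
  · rw [laurentEuler_coe, laurentEuler_coe, derivative_expSeries (hy0 i), ← PowerSeries.coe_mul]
    congr 1
    ring
  · have e : ∑ i, m i • ((y i : PowerSeries K) : LaurentSeries K) =
        ((∑ i, m i • y i : PowerSeries K) : LaurentSeries K) := by
      rw [map_sum]
      exact Finset.sum_congr rfl fun i _ => (map_zsmul _ _ _).symm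
    rw [e] at hm
    obtain ⟨c, hc⟩ := laurentEuler_eq_zero hm
    have h0 : c = 0 := by
      have h := congrArg (fun w : LaurentSeries K => w.coeff 0) hc
      simp only [algebraMap_laurent, HahnSeries.C_apply, HahnSeries.coeff_single_same] at h
      rw [h, PowerSeries.coeff_coe, if_neg (lt_irrefl 0), Int.natAbs_zero,
        PowerSeries.coeff_zero_eq_constantCoeff_apply, map_sum]
      exact Finset.sum_eq_zero fun i _ => by rw [map_zsmul, hy0, smul_zero]
    rw [h0, map_zero, ← PowerSeries.coe_zero] at hc
    exact funext (Fintype.linearIndependent_iff.1 hy m (HahnSeries.ofPowerSeries_injective hc.symm))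

/-- **Ax's theorem for power series.** -/
theorem ax_series (hn : 0 < n) (hy0 : ∀ i, PowerSeries.constantCoeff (y i) = 0)
    (hy : LinearIndependent ℤ y) :
    (n : Cardinal) + 1 ≤ Algebra.trdeg K (IntermediateField.adjoin K
      (Set.range (fun i => ((y i : PowerSeries K) : LaurentSeries K)) ∪
        Set.range fun i => ((expSeries (y i) : PowerSeries K) : LaurentSeries K))) :=
  have h := laurent_setup hy0 hy
  ax_trdeg laurentEuler h.1 h.2.1 hn (fun _ => laurentEuler_eq_zero) h.2.2

/-- Transitivity of algebraicity. -/
theorem isAlgebraic_of_adjoin {k F : Type*} [Field k] [Field F] [Algebra k F]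
    (E : IntermediateField k F) {w : Set F} (hw : ∀ a ∈ w, IsAlgebraic E a) {x : F}
    (hx : IsAlgebraic (IntermediateField.adjoin k w) x) : IsAlgebraic E x := by
  set G := algebraicClosure E F
  have hle : IntermediateField.adjoin k w ≤ G.restrictScalars k :=
    IntermediateField.adjoin_le_iff.2 fun a ha => mem_algebraicClosure_iff.2 (hw a ha)
  have h1 : IsAlgebraic G x :=
    hx.ringHom_of_comp_eq (IntermediateField.inclusion hle).toRingHom
      (RingHom.id F) (RingHom.injective (IntermediateField.inclusion hle).toRingHom) rfl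
  exact (isIntegral_trans (R := E) (A := G) x h1.isIntegral).isAlgebraic

/-- Exponentials of algebraic series are algebraically independent with `t`. -/
theorem ax_independent (hy0 : ∀ i, PowerSeries.constantCoeff (y i) = 0)
    (hy : LinearIndependent ℤ y)
    (halg : ∀ i, IsAlgebraic (IntermediateField.adjoin K {(HahnSeries.single (1 : ℤ) (1 : K))})
      ((y i : PowerSeries K) : LaurentSeries K)) :
    AlgebraicIndependent K (Fin.cons (HahnSeries.single (1 : ℤ) (1 : K))
      (fun i => ((expSeries (y i) : PowerSeries K) : LaurentSeries K)) :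
        Fin (n + 1) → LaurentSeries K) := by
  classical
  set w : Fin (n + 1) → LaurentSeries K := Fin.cons (HahnSeries.single (1 : ℤ) (1 : K))
    (fun i => ((expSeries (y i) : PowerSeries K) : LaurentSeries K)) with hw
  refine algebraicIndependent_of_finite_type'
    (algebraMap K (LaurentSeries K)).injective fun s hs _ j hj => ?_
  by_contra hcon
  rw [Transcendental, not_not] at hcon
  rcases Nat.eq_zero_or_pos n with rfl | hn
  · obtain rfl : j = 0 := Fin.fin_one_eq_zero j
    have hs0 : s = ∅ := Set.eq_empty_of_forall_notMem fun i hi => hj (Fin.fin_one_eq_zero i ▸ hi)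
    subst hs0
    rw [Set.image_empty, Algebra.adjoin_empty] at hcon
    have ht := constant_of_isAlgebraic laurentEuler
      (hcon.ringHom_of_comp_eq (Algebra.botEquiv K (LaurentSeries K)).toRingEquiv.toRingHom
        (RingHom.id (LaurentSeries K)) (RingEquiv.injective _) (RingHom.ext fun x => by
          obtain ⟨c, rfl⟩ := (Algebra.botEquiv K (LaurentSeries K)).symm.surjective x
          simp) : IsAlgebraic K (w 0))
    have := congrArg (fun x : LaurentSeries K => x.coeff 1) ht
    simp [hw, coeff_laurentEuler] at this
  set t : Fin n → LaurentSeries K := fun i => w (j.succAbove i)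
  set E := IntermediateField.adjoin K (Set.range t)
  have hsE : Algebra.adjoin K (w '' s) ≤ E.toSubalgebra := Algebra.adjoin_le (by
    rintro _ ⟨i, hi, rfl⟩
    obtain ⟨i', rfl⟩ := Fin.exists_succAbove_eq (fun h : i = j => hj (h ▸ hi))
    exact IntermediateField.subset_adjoin K _ ⟨i', rfl⟩)
  set G := algebraicClosure E (LaurentSeries K)
  have hw' : ∀ i, w i ∈ G := fun i => by
    rcases eq_or_ne i j with rfl | hi
    · refine mem_algebraicClosure_iff.2 ?_
      exact hcon.ringHom_of_comp_eq (Subalgebra.inclusion hsE).toRingHom
        (RingHom.id (LaurentSeries K)) (Subalgebra.inclusion_injective hsE) rfl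
    · obtain ⟨i', rfl⟩ := Fin.exists_succAbove_eq hi
      exact mem_algebraicClosure_iff.2 (isAlgebraic_algebraMap
        (⟨t i', IntermediateField.subset_adjoin K _ ⟨i', rfl⟩⟩ : E))
  have hyG : ∀ i, IsAlgebraic E ((y i : PowerSeries K) : LaurentSeries K) := fun i =>
    isAlgebraic_of_adjoin E (by
      rintro _ rfl
      exact mem_algebraicClosure_iff.1 (hw' 0)) (halg i)
  have h := laurent_setup hy0 hy
  exact ax_core laurentEuler h.1 h.2.1 hn (fun _ => laurentEuler_eq_zero) h.2.2 le_rfl t hyG
    fun i => mem_algebraicClosure_iff.1 (hw' i.succ)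

end Fermat.Agent.AxSchanuel
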